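import Fermat.Agent.RandomTorsion.Orbits

/-!
# Independent chances of a torsion point at the large primes

Among the automorphisms of the `l`-torsion coming from Galois at least one in `4 l` fixes a point of
order `l`, and the actions at different primes beyond the level are independent.
-/

set_option autoImplicit false
set_option linter.style.haveILetI false
set_option linter.unusedSectionVars false

noncomputable section

open WeierstrassCurve
open scoped WeierstrassCurve.Affine Classical

local notation "Qb" => AlgebraicClosure ℚ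
local notation "GQ" => AlgebraicClosure ℚ ≃ₐ[ℚ] AlgebraicClosure ℚ

namespace Fermat.Agent.RandomTorsion

variable {E : WeierstrassCurve ℚ} [E.IsElliptic] {m : ℕ} (hm : IsAdelicLevel E m)

/-- The automorphisms of a level coming from Galois which fix a point other than zero. -/
def fixingPerms (E : WeierstrassCurve ℚ) [E.IsElliptic] (N : ℕ) : Set (torsionPerm E N).range :=
  {γ | ∃ P : Submodule.torsionBy ℤ (E.toAffine⁄Qb).Point (N : ℤ), P ≠ 0 ∧ γ • P = P}

include hm in
/-- **One automorphism in `4 l` fixes a point of order `l`.** -/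
theorem card_range_le {l : ℕ} (hl : l.Prime) (hlm : m < l) :
    Nat.card (torsionPerm E l).range ≤ 4 * l * (fixingPerms E l).ncard := by
  have : Fact l.Prime := ⟨hl⟩
  have := FA.EC.finite_torsion E hl.ne_zero
  let T := Submodule.torsionBy ℤ (E.toAffine⁄Qb).Point (l : ℤ)
  let G := (torsionPerm E l).range
  have hTcard : Nat.card T = l ^ 2 := FA.EC.natCard_torsion E hl.ne_zero
  have : Fintype T := Fintype.ofFinite T
  have : Fintype G := Fintype.ofFinite G
  obtain ⟨e⟩ := exists_torsion_coord E l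
  have hzero : ∀ γ : G, γ • (0 : T) = 0 := fun γ => by
    obtain ⟨σ, hσ⟩ := γ.2
    show γ.1 0 = 0
    rw [← hσ]
    exact Subtype.ext ((torsionPerm_apply E l σ 0).trans (map_zero _))
  let P₀ : T := e.symm (Pi.single 0 1)
  have hP₀ : P₀ ≠ 0 := fun h => by
    have h' := congrFun ((e.apply_symm_apply _).symm.trans ((congrArg e h).trans (map_zero e))) 0
    simp at h'
  -- the identity is not alone in fixing a point of order `l`
  obtain ⟨σ₁, hσ₁⟩ := exists_transvection hm e 1 1 (Pi.single 0 1) (by simp) fun x hx => by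
    have h : (m : ZMod l) * x 1 = 0 := by
      rw [← nsmul_eq_mul, ← Pi.smul_apply, hx, Pi.zero_apply]
    rw [one_mul, (mul_eq_zero.1 h).resolve_left fun h0 =>
      absurd (Nat.le_of_dvd hm.1 ((ZMod.natCast_eq_zero_iff m l).1 h0)) (by omega), zero_smul]
  let γ₁ : G := ⟨torsionPerm E l σ₁, σ₁, rfl⟩
  have hγ₁P : γ₁ • P₀ = P₀ := e.injective (by
    show e (torsionPerm E l σ₁ (e.symm (Pi.single 0 1))) = e (e.symm _)
    rw [hσ₁, e.apply_symm_apply]
    simp)
  have hγ₁ : γ₁ ≠ 1 := fun h => by
    have h' := congrFun (hσ₁ (Pi.single 1 1)) 0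
    rw [show torsionPerm E l σ₁ = 1 from congrArg Subtype.val h, Equiv.Perm.one_apply,
      e.apply_symm_apply] at h'
    simp at h'
  have horder : addOrderOf P₀.1 = l := addOrderOf_eq_prime ((mem_torsionBy_nat E).1 P₀.2)
    fun h => hP₀ (Subtype.ext h)
  have horb : l ^ 2 - l ≤ Fintype.card (MulAction.orbit G P₀) := by
    refine (sub_le_ncard_orbit hm hl hlm horder).trans ?_
    rw [← Nat.card_eq_fintype_card, Nat.card_coe_set_eq,
      ← Set.ncard_image_of_injective (MulAction.orbit G P₀)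
        (Subtype.val_injective : Function.Injective fun Q : T => Q.1)]
    refine Set.ncard_le_ncard ?_ (Set.toFinite _)
    rintro _ ⟨σ, rfl⟩
    exact ⟨torsionPerm E l σ P₀, ⟨⟨_, σ, rfl⟩, rfl⟩, torsionPerm_apply E l σ P₀⟩
  have hstab : 2 ≤ Fintype.card (MulAction.stabilizer G P₀) :=
    Fintype.one_lt_card_iff_nontrivial.2 ⟨⟨1, one_mem _⟩, ⟨γ₁, hγ₁P⟩,
      fun h => hγ₁ (congrArg Subtype.val h).symm⟩
  have hG : 2 * (l ^ 2 - l) ≤ Fintype.card G := by
    rw [← MulAction.card_orbit_mul_card_stabilizer_eq_card_group G P₀, mul_comm]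
    exact Nat.mul_le_mul horb hstab
  -- two orbits at least
  have : Nontrivial (Quotient (MulAction.orbitRel G T)) := by
    refine ⟨⟨⟦0⟧, ⟦P₀⟧, fun h => ?_⟩⟩
    obtain ⟨γ, hγ⟩ := Quotient.exact h.symm
    exact hP₀ (hγ.symm.trans (hzero γ))
  have hburn : 2 * Fintype.card G ≤ ∑ γ : G, Fintype.card (MulAction.fixedBy T γ) := by
    rw [MulAction.sum_card_fixedBy_eq_card_orbits_mul_card_group]
    exact Nat.mul_le_mul_right _ Fintype.one_lt_card
  -- a fixed subgroup is trivial, of order `l`, or everything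
  have hle : ∀ γ : G, Fintype.card (MulAction.fixedBy T γ) ≤
      1 + (if γ ∈ fixingPerms E l then l else 0) + if γ = 1 then l ^ 2 - 1 else 0 := fun γ => by
    rw [← Nat.card_eq_fintype_card]
    rcases eq_or_ne γ 1 with rfl | hγ
    · rw [if_pos rfl]
      have := Finite.card_subtype_le (fun P : T => P ∈ MulAction.fixedBy T (1 : G))
      rw [hTcard] at this
      exact this.trans (by omega)
    rw [if_neg hγ, add_zero]
    split_ifs with hg
    · obtain ⟨σ, hσ⟩ := γ.2
      let F : AddSubgroup T :=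
        { carrier := MulAction.fixedBy T γ
          zero_mem' := hzero γ
          add_mem' := fun {P Q} hP hQ => by
            change γ.1 P = P at hP
            change γ.1 Q = Q at hQ
            show γ.1 (P + Q) = P + Q
            rw [← hσ] at hP hQ ⊢
            refine Subtype.ext ?_
            rw [torsionPerm_apply, Submodule.coe_add, map_add, ← torsionPerm_apply,
              ← torsionPerm_apply, hP, hQ]
          neg_mem' := fun {P} hP => by
            change γ.1 P = P at hP
            show γ.1 (-P) = -P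
            rw [← hσ] at hP ⊢
            refine Subtype.ext ?_
            rw [torsionPerm_apply, Submodule.coe_neg, map_neg, ← torsionPerm_apply, hP] }
      obtain ⟨k, hk, hF⟩ := (Nat.dvd_prime_pow hl).1 (hTcard ▸ F.card_addSubgroup_dvd_card)
      have hk2 : k ≠ 2 := by
        rintro rfl
        refine hγ (Subtype.ext (Equiv.ext fun P => ?_))
        have htop : F = ⊤ := AddSubgroup.eq_top_of_card_eq F (hF.trans hTcard.symm)
        exact (htop ▸ AddSubgroup.mem_top P : P ∈ F)
      show Nat.card F ≤ 1 + l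
      rw [hF]
      calc l ^ k ≤ l ^ 1 := Nat.pow_le_pow_right hl.pos (by omega)
        _ ≤ 1 + l := by rw [pow_one]; omega
    · have : Subsingleton (MulAction.fixedBy T γ) := ⟨fun P Q => Subtype.ext (by
        have hz : ∀ R : MulAction.fixedBy T γ, R.1 = 0 := fun R =>
          by_contra fun h => hg ⟨R.1, h, R.2⟩
        rw [hz P, hz Q])⟩
      exact (Finite.card_le_one_iff_subsingleton.2 this).trans (by omega)
  have hsum := hburn.trans (Finset.sum_le_sum fun γ _ => hle γ)
  rw [Finset.sum_add_distrib, Finset.sum_add_distrib, Finset.sum_const, Finset.card_univ,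
    smul_eq_mul, mul_one, Finset.sum_ite_eq' Finset.univ (1 : G) (fun _ => l ^ 2 - 1),
    if_pos (Finset.mem_univ _), ← Finset.sum_filter, Finset.sum_const, smul_eq_mul,
    ← Set.ncard_coe_finset, show ((Finset.univ.filter fun γ : G => γ ∈ fixingPerms E l : Finset G) :
      Set G) = fixingPerms E l by ext; simp] at hsum
  show Nat.card G ≤ _
  rw [Nat.card_eq_fintype_card]
  have h2 := hl.two_le
  rw [mul_comm 4 l, mul_assoc, mul_comm 4, ← mul_assoc, mul_comm l]
  have h22 : l ^ 2 = l * l := sq l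
  have h2l : 2 * l ≤ l * l := Nat.mul_le_mul_right l h2
  have h3l : 3 * l ≤ l * l + 2 := by
    rcases h2.eq_or_lt with e | e
    · rw [← e]
    · exact (Nat.mul_le_mul_right l e).trans (Nat.le_add_right _ _)
  omega

include hm in
/-- **Independence**: the actions at distinct primes beyond the level can be prescribed. -/
theorem exists_simultaneous (S : Finset ℕ) (hS : ∀ l ∈ S, l.Prime ∧ m < l) (τ : S → GQ) :
    ∃ σ : GQ, ∀ l : S, torsionPerm E l σ = torsionPerm E l (τ l) := by
  let ρ : GQ →* ∀ l : S, (torsionPerm E l).range :=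
    MonoidHom.mk' (fun σ l => ⟨torsionPerm E l σ, σ, rfl⟩)
      fun σ σ' => funext fun l => Subtype.ext (map_mul _ σ σ')
  suffices h : ∀ (l : S) (τ₀ : GQ),
      Pi.mulSingle l (⟨torsionPerm E l τ₀, τ₀, rfl⟩ : (torsionPerm E l).range) ∈ ρ.range by
    obtain ⟨σ, hσ⟩ := Subgroup.pi_mem_of_mulSingle_mem (H := ρ.range)
      (fun l : S => (⟨torsionPerm E l (τ l), τ l, rfl⟩ : (torsionPerm E l).range))
      fun l => h l (τ l)
    exact ⟨σ, fun l => congrArg Subtype.val (congrFun hσ l)⟩
  intro l τ₀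
  set N := ∏ q ∈ S, q with hN
  have hN0 : N ≠ 0 := Finset.prod_ne_zero_iff.2 fun q hq => (hS q hq).1.ne_zero
  set M := ∏ q ∈ S.erase l.1, q
  have hNlM : N = l * M := (Finset.mul_prod_erase S _ l.2).symm
  have hcop : (l : ℕ).Coprime M := Nat.Coprime.prod_right fun q hq =>
    (Nat.coprime_primes (hS l l.2).1 (hS q (Finset.mem_of_mem_erase hq)).1).2
      (Finset.ne_of_mem_erase hq).symm
  obtain ⟨a, ha₁, ha₀⟩ := Nat.chineseRemainder hcop 1 0
  rw [Nat.modEq_zero_iff_dvd] at ha₀
  let A := (E.toAffine⁄Qb).Point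
  let T := Submodule.torsionBy ℤ A (N : ℤ)
  have hNmod : ∀ P : T, (N : ℕ) • P.1 = 0 := fun P => (mem_torsionBy_nat E).1 P.2
  have hal : ∀ P : T, (l : ℕ) • (a • P.1) = 0 := fun P => by
    obtain ⟨c, rfl⟩ := ha₀
    rw [smul_smul, ← mul_assoc, ← hNlM, mul_comm, mul_nsmul', hNmod, nsmul_zero]
  have ha : ∀ R : A, (l : ℕ) • R = 0 → a • R = R := fun R hR => by
    conv_rhs => rw [← one_nsmul R]
    exact nsmul_eq_nsmul_iff_modEq.2
      (ha₁.of_dvd (addOrderOf_dvd_iff_nsmul_eq_zero.2 hR))
  let f : GQ → A → A := fun g R =>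
    R + (Affine.Point.map (W' := E.toAffine) g.toAlgHom (a • R) - a • R)
  have hf : ∀ (g : GQ) (P : T), f g P.1 ∈ T := fun g P => (mem_torsionBy_nat E).2 (by
    simp only [f, nsmul_add, nsmul_sub, ← map_nsmul, smul_smul, mul_comm N a, mul_nsmul', hNmod,
      nsmul_zero, map_zero, sub_zero, add_zero])
  have hinv : ∀ (g : GQ) (P : T), f g⁻¹ (f g P.1) = P.1 := fun g P => by
    have h1 : a • f g P.1 = Affine.Point.map (W' := E.toAffine) g.toAlgHom (a • P.1) := by
      simp only [f, nsmul_add, nsmul_sub, ← map_nsmul]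
      rw [ha _ (hal P)]
      abel
    have h2 : Affine.Point.map (W' := E.toAffine) (g⁻¹ : GQ).toAlgHom
        (Affine.Point.map (W' := E.toAffine) g.toAlgHom (a • P.1)) = a • P.1 := by
      rw [← Affine.Point.algEquiv_smul_def, ← Affine.Point.algEquiv_smul_def, inv_smul_smul]
    show f g P.1 + (_ - a • f g P.1) = P.1
    rw [h1, h2]
    simp only [f]
    abel
  let φ : T ≃+ T := AddEquiv.mk' ⟨fun P => ⟨_, hf τ₀ P⟩, fun P => ⟨_, hf τ₀⁻¹ P⟩,
      fun P => Subtype.ext (hinv τ₀ P), fun P => Subtype.ext (by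
        have h := hinv τ₀⁻¹ P
        rwa [inv_inv] at h)⟩
    fun P Q => Subtype.ext (by
      show f τ₀ (P.1 + Q.1) = f τ₀ P.1 + f τ₀ Q.1
      simp only [f, nsmul_add, map_add]
      abel)
  have hmN : m.Coprime N := Nat.Coprime.prod_right fun q hq =>
    ((hS q hq).1.coprime_iff_not_dvd.2 fun hd => absurd (Nat.le_of_dvd hm.1 hd)
      (not_le.2 (hS q hq).2)).symm
  obtain ⟨σ, hσ⟩ := hm.2 N hN0 φ fun P hP => by
    have h0 : P = 0 := Subtype.ext (AddMonoid.addOrderOf_eq_one_iff.1
      (Nat.eq_one_of_dvd_coprimes hmN (addOrderOf_dvd_of_nsmul_eq_zero hP)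
        (addOrderOf_dvd_of_nsmul_eq_zero (hNmod P))))
    rw [h0, map_zero]
  refine ⟨σ, funext fun q => Subtype.ext (Equiv.ext fun P => Subtype.ext ?_)⟩
  have hPN : N • P.1 = 0 := by
    obtain ⟨c, hc⟩ := Finset.dvd_prod_of_mem (fun q => q) q.2
    rw [hN, hc, mul_comm, mul_nsmul', (mem_torsionBy_nat E).1 P.2, nsmul_zero]
  have h := hσ ⟨P.1, (mem_torsionBy_nat E).2 hPN⟩
  show (torsionPerm E q σ P).1 = _
  rw [torsionPerm_apply, h]
  show f τ₀ P.1 = _
  rcases eq_or_ne q l with rfl | hq
  · rw [Pi.mulSingle_eq_same]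
    show _ = (torsionPerm E q τ₀ P).1
    rw [torsionPerm_apply]
    simp only [f, ha _ ((mem_torsionBy_nat E).1 P.2)]
    abel
  · rw [Pi.mulSingle_eq_of_ne hq]
    show _ = P.1
    obtain ⟨c, hc⟩ := (Finset.dvd_prod_of_mem (fun q => q)
      (Finset.mem_erase.2 ⟨fun e => hq (Subtype.ext e), q.2⟩)).trans ha₀
    have hz : a • P.1 = 0 := by
      rw [hc, mul_comm, mul_nsmul', (mem_torsionBy_nat E).1 P.2, nsmul_zero]
    simp only [f, hz, map_zero, sub_zero, add_zero]

end Fermat.Agent.RandomTorsion
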