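import Fermat.Agent.FreeGenerators.Measure
import Fermat.Agent.RandomTorsion.Independence

/-!
# Torsion points fixed by random tuples

A point is fixed by at most one in `(c / D) ^ e` of the `e`-tuples, `c` being the number of its
conjugates and `D` the degree of the base field, and a tuple fixing a point of order `N` fixes
`φ(N)` of them. So a single element fixes points of infinitely many prime orders but of bounded
`l`-power order, and two elements fix points of finitely many prime orders only.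
-/

set_option autoImplicit false
set_option linter.style.haveILetI false
set_option linter.unusedSectionVars false

noncomputable section

open WeierstrassCurve MeasureTheory Filter
open scoped WeierstrassCurve.Affine Classical ENNReal Topology

local notation "Qb" => AlgebraicClosure ℚ
local notation "GQ" => AlgebraicClosure ℚ ≃ₐ[ℚ] AlgebraicClosure ℚ

namespace Fermat.Agent.RandomTorsion

variable (E : WeierstrassCurve ℚ) [E.IsElliptic] {K : IntermediateField ℚ Qb} {e : ℕ}

/-- The tuples fixing a point. -/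
def fixesPoint (P : (E.toAffine⁄Qb).Point) : Set (Fin e → K.fixingSubgroup) :=
  {σ | ∀ i, Affine.Point.map (W' := E.toAffine) (σ i : GQ).toAlgHom P = P}

/-- The tuples fixing a point of order `N`. -/
def fixesOrder (N : ℕ) : Set (Fin e → K.fixingSubgroup) :=
  {σ | ∃ P : (E.toAffine⁄Qb).Point, addOrderOf P = N ∧ σ ∈ fixesPoint E P}

theorem isOpen_fixesPoint (P : (E.toAffine⁄Qb).Point) :
    IsOpen (fixesPoint E P : Set (Fin e → K.fixingSubgroup)) := by
  simp only [fixesPoint, Set.ofPred_forall]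
  refine isOpen_iInter_of_finite fun i => ?_
  have h := (FA.MordellWeilNF.isOpen_stabilizer E P).preimage
    (continuous_subtype_val.comp
      (continuous_apply i : Continuous fun σ : Fin e → K.fixingSubgroup => σ i))
  exact h

theorem finite_setOf_addOrderOf {N : ℕ} (hN : N ≠ 0) :
    {P : (E.toAffine⁄Qb).Point | addOrderOf P = N}.Finite ∧
      {P : (E.toAffine⁄Qb).Point | addOrderOf P = N}.ncard ≤ N ^ 2 := by
  have := FA.EC.finite_torsion E hN
  let f : Submodule.torsionBy ℤ (E.toAffine⁄Qb).Point (N : ℤ) → (E.toAffine⁄Qb).Point :=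
    Subtype.val
  have hsub : {P : (E.toAffine⁄Qb).Point | addOrderOf P = N} ⊆ Set.range f := fun P hP =>
    ⟨⟨P, (mem_torsionBy_nat E).2 (by rw [← hP]; exact addOrderOf_nsmul_eq_zero P)⟩, rfl⟩
  refine ⟨(Set.finite_range f).subset hsub,
    (Set.ncard_le_ncard hsub (Set.finite_range f)).trans ?_⟩
  rw [← Set.image_univ, Set.ncard_image_of_injective _ Subtype.val_injective, Set.ncard_univ,
    ← FA.EC.natCard_torsion E hN]

theorem fixingSubgroup_index_pos [FiniteDimensional ℚ K] : 0 < K.fixingSubgroup.index := by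
  have : IsGalois ℚ Qb := FA.EC.isGalois_algebraicClosure
  rw [← IntermediateField.finrank_eq_fixingSubgroup_index]
  exact Module.finrank_pos

/-- The conjugates are at most `D` times those over the base field. -/
theorem ncard_orbit_le [FiniteDimensional ℚ K] (P : (E.toAffine⁄Qb).Point)
    (hP : IsOfFinAddOrder P) :
    (Set.range fun σ : GQ => Affine.Point.map (W' := E.toAffine) σ.toAlgHom P).ncard ≤
        K.fixingSubgroup.index *
          (Set.range fun σ : K.fixingSubgroup =>
            Affine.Point.map (W' := E.toAffine) (σ : GQ).toAlgHom P).ncard ∧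
      (Set.range fun σ : K.fixingSubgroup =>
        Affine.Point.map (W' := E.toAffine) (σ : GQ).toAlgHom P).Finite := by
  have hN : addOrderOf P ≠ 0 := hP.addOrderOf_pos.ne'
  set R := Set.range fun σ : K.fixingSubgroup =>
    Affine.Point.map (W' := E.toAffine) (σ : GQ).toAlgHom P
  have hR : R.Finite := (finite_setOf_addOrderOf E hN).1.subset (by
    rintro _ ⟨σ, rfl⟩
    exact addOrderOf_injective _ (Affine.Point.map_injective _) P)
  refine ⟨?_, hR⟩
  have : K.fixingSubgroup.FiniteIndex := ⟨(fixingSubgroup_index_pos (K := K)).ne'⟩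
  have := hR.to_subtype
  rw [← Nat.card_coe_set_eq, ← Nat.card_coe_set_eq, Subgroup.index, ← Nat.card_prod]
  refine Nat.card_le_card_of_surjective
    (fun x : (GQ ⧸ K.fixingSubgroup) × R =>
      (⟨Affine.Point.map (W' := E.toAffine) x.1.out.toAlgHom x.2.1, ?_⟩ :
        Set.range fun σ : GQ => Affine.Point.map (W' := E.toAffine) σ.toAlgHom P)) ?_
  · obtain ⟨u, hu⟩ := x.2.2
    refine ⟨x.1.out * u, ?_⟩
    rw [← hu]
    show Affine.Point.map (W' := E.toAffine) (x.1.out * (u : GQ)).toAlgHom P = _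
    rw [← Affine.Point.algEquiv_smul_def, mul_smul]
    rfl
  · rintro ⟨_, σ, rfl⟩
    obtain ⟨u, hu⟩ := QuotientGroup.mk_out_eq_mul K.fixingSubgroup σ
    refine ⟨(((σ : GQ) : GQ ⧸ K.fixingSubgroup), ⟨_, u⁻¹, rfl⟩), Subtype.ext ?_⟩
    show Affine.Point.map (W' := E.toAffine)
      (QuotientGroup.mk σ : GQ ⧸ K.fixingSubgroup).out.toAlgHom
      (Affine.Point.map (W' := E.toAffine) ((u : GQ)⁻¹).toAlgHom P) = _
    rw [hu, ← Affine.Point.algEquiv_smul_def, ← Affine.Point.algEquiv_smul_def, ← mul_smul,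
      mul_inv_cancel_right]
    rfl

variable [MeasurableSpace (Fin e → K.fixingSubgroup)] [BorelSpace (Fin e → K.fixingSubgroup)]
  (μ : Measure (Fin e → K.fixingSubgroup)) [IsProbabilityMeasure μ] [μ.IsMulLeftInvariant]

/-- Translates of the tuples fixing a point are disjoint. -/
theorem measure_fixesPoint_mul_le (P : (E.toAffine⁄Qb).Point)
    (hfin : (Set.range fun σ : K.fixingSubgroup =>
      Affine.Point.map (W' := E.toAffine) (σ : GQ).toAlgHom P).Finite) :
    μ (fixesPoint E P) *
      ((Set.range fun σ : K.fixingSubgroup =>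
        Affine.Point.map (W' := E.toAffine) (σ : GQ).toAlgHom P).ncard : ℝ≥0∞) ^ e ≤ 1 := by
  set O := Set.range fun σ : K.fixingSubgroup =>
    Affine.Point.map (W' := E.toAffine) (σ : GQ).toAlgHom P
  have : Fintype O := hfin.fintype
  choose v hv using fun x : O => x.2
  let A : (Fin e → O) → Set (Fin e → K.fixingSubgroup) := fun r =>
    (fun σ => (fun i => v (r i))⁻¹ * σ) ⁻¹' fixesPoint E P
  have hmem : ∀ r σ, σ ∈ A r → ∀ i,
      Affine.Point.map (W' := E.toAffine) (σ i : GQ).toAlgHom P = r i := fun r σ h i => by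
    have h' : Affine.Point.map (W' := E.toAffine) ((v (r i) : GQ)⁻¹ * (σ i : GQ)).toAlgHom P = P :=
      h i
    have h'' := congrArg (Affine.Point.map (W' := E.toAffine) (v (r i) : GQ).toAlgHom) h'
    rw [show Affine.Point.map (W' := E.toAffine) (v (r i) : GQ).toAlgHom P = r i from hv (r i),
      ← Affine.Point.algEquiv_smul_def, ← Affine.Point.algEquiv_smul_def, ← mul_smul,
      mul_inv_cancel_left, Affine.Point.algEquiv_smul_def] at h''
    exact h''
  have hA : ∀ r, MeasurableSet (A r) := fun r =>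
    ((isOpen_fixesPoint E P).preimage (continuous_const_mul _)).measurableSet
  have hdis : Pairwise (Function.onFun Disjoint A) := fun r r' hne =>
    Set.disjoint_left.2 fun σ h h' => hne (funext fun i => Subtype.ext
      ((hmem r σ h i).symm.trans (hmem r' σ h' i)))
  calc μ (fixesPoint E P) * (O.ncard : ℝ≥0∞) ^ e
      = ∑ r : Fin e → O, μ (A r) := by
        rw [Finset.sum_congr rfl fun r _ => measure_preimage_mul μ _ (fixesPoint E P),
          Finset.sum_const, nsmul_eq_mul, Finset.card_univ, Fintype.card_fun, Fintype.card_fin,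
          ← Nat.card_eq_fintype_card, Nat.card_coe_set_eq, Nat.cast_pow, mul_comm]
    _ = μ (⋃ r, A r) := by rw [measure_iUnion hdis hA, tsum_fintype]
    _ ≤ 1 := prob_le_one

variable [FiniteDimensional ℚ K]

/-- **The tuples fixing a point of order `N`.** -/
theorem measure_fixesOrder_le {N o j : ℕ} (hN : N ≠ 0) (hje : j ≤ e)
    (ho : ∀ P : (E.toAffine⁄Qb).Point, addOrderOf P = N →
      o ≤ (Set.range fun σ : GQ => Affine.Point.map (W' := E.toAffine) σ.toAlgHom P).ncard) :
    μ (fixesOrder E N) * (N.totient * o ^ j : ℕ) ≤ (N ^ 2 * K.fixingSubgroup.index ^ j : ℕ) := by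
  set D := K.fixingSubgroup.index
  obtain ⟨hfin, hcard⟩ := finite_setOf_addOrderOf E hN
  set S := hfin.toFinset
  have hS : ∀ {P}, P ∈ S ↔ addOrderOf P = N := fun {P} => hfin.mem_toFinset
  have hmeas : ∀ P, MeasurableSet (fixesPoint (K := K) (e := e) E P) := fun P =>
    (isOpen_fixesPoint E P).measurableSet
  have hpt : ∀ σ : Fin e → K.fixingSubgroup, σ ∈ fixesOrder E N →
      (N.totient : ℝ≥0∞) ≤ ∑ P ∈ S, (fixesPoint E P).indicator 1 σ := by
    rintro σ ⟨P₀, hP₀, hσ⟩
    set T := S.filter fun P => σ ∈ fixesPoint E P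
    have hT : N.totient ≤ T.card := by
      rw [Nat.totient_eq_card_coprime]
      refine Finset.card_le_card_of_injOn (fun a => a • P₀) (fun a ha => ?_) fun a ha b hb h => ?_
      · obtain ⟨-, ha'⟩ := Finset.mem_filter.1 ha
        refine Finset.mem_filter.2 ⟨hS.2 ?_, fun i => ?_⟩
        · rw [Nat.Coprime.addOrderOf_nsmul (hP₀.symm ▸ ha'), hP₀]
        · rw [map_nsmul, hσ i]
      · simp only [Finset.coe_filter, Finset.mem_range, Set.mem_ofPred_eq] at ha hb
        exact nsmul_injOn_Iio_addOrderOf (x := P₀) (hP₀.symm ▸ ha.1) (hP₀.symm ▸ hb.1) h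
    calc (N.totient : ℝ≥0∞) ≤ T.card := by exact_mod_cast hT
      _ = ∑ P ∈ S, (fixesPoint E P).indicator 1 σ := by
        simp [T, Set.indicator_apply]
  have hint : μ (fixesOrder E N) * (N.totient : ℝ≥0∞) ≤ ∑ P ∈ S, μ (fixesPoint E P) := by
    have hF : MeasurableSet (fixesOrder (K := K) (e := e) E N) := by
      have h : fixesOrder (K := K) (e := e) E N = ⋃ P ∈ S, fixesPoint E P := by
        ext σ
        simp [fixesOrder, hS]
      rw [h]
      exact S.measurableSet_biUnion fun P _ => hmeas P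
    calc μ (fixesOrder E N) * (N.totient : ℝ≥0∞)
        = ∫⁻ σ, (fixesOrder E N).indicator (fun _ => (N.totient : ℝ≥0∞)) σ ∂μ := by
          rw [lintegral_indicator_const hF, mul_comm]
      _ ≤ ∫⁻ σ, ∑ P ∈ S, (fixesPoint E P).indicator 1 σ ∂μ :=
          lintegral_mono fun σ => Set.indicator_apply_le' (hpt σ) fun _ => zero_le
      _ = ∑ P ∈ S, μ (fixesPoint E P) := by
          rw [lintegral_finsetSum _ fun P _ => measurable_one.indicator (hmeas P)]
          exact Finset.sum_congr rfl fun P _ => lintegral_indicator_one (hmeas P)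
  have hone : ∀ P ∈ S, μ (fixesPoint E P) * (o : ℝ≥0∞) ^ j ≤ (D : ℝ≥0∞) ^ j := fun P hP => by
    have hPfin : IsOfFinAddOrder P :=
      addOrderOf_pos_iff.1 (by rw [hS.1 hP]; exact Nat.pos_of_ne_zero hN)
    obtain ⟨hle, hf⟩ := ncard_orbit_le E (K := K) P hPfin
    set c := (Set.range fun σ : K.fixingSubgroup =>
      Affine.Point.map (W' := E.toAffine) (σ : GQ).toAlgHom P).ncard
    have hc : 1 ≤ c := (Set.ncard_pos hf).2 (Set.range_nonempty _)
    have h1 : o ^ j ≤ D ^ j * c ^ e := ((Nat.pow_le_pow_left ((ho P (hS.1 hP)).trans hle) j).trans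
      (le_of_eq (mul_pow D c j))).trans (Nat.mul_le_mul_left _ (Nat.pow_le_pow_right hc hje))
    calc μ (fixesPoint E P) * (o : ℝ≥0∞) ^ j
        ≤ μ (fixesPoint E P) * ((D : ℝ≥0∞) ^ j * (c : ℝ≥0∞) ^ e) :=
          mul_le_mul_right (by exact_mod_cast h1) _
      _ = (D : ℝ≥0∞) ^ j * (μ (fixesPoint E P) * (c : ℝ≥0∞) ^ e) := mul_left_comm _ _ _
      _ ≤ (D : ℝ≥0∞) ^ j := by
          conv_rhs => rw [← mul_one ((D : ℝ≥0∞) ^ j)]
          exact mul_le_mul_right (measure_fixesPoint_mul_le E μ P hf) _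
  push_cast
  rw [← mul_assoc]
  refine (mul_le_mul_left hint _).trans ?_
  rw [Finset.sum_mul]
  refine (Finset.sum_le_sum hone).trans ?_
  rw [Finset.sum_const, nsmul_eq_mul, ← Nat.cast_pow N]
  refine mul_le_mul_left (Nat.cast_le.2 ?_) _
  rw [← Set.ncard_eq_toFinset_card _ hfin]
  exact hcard

variable {E} {m : ℕ} (hm : IsAdelicLevel E m)

include hm in
/-- **Almost no tuple fixes points of unbounded `l`-power order.** -/
theorem ae_not_fixesOrder_pow (he : 1 ≤ e) {l : ℕ} (hl : l.Prime) :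
    ∀ᵐ σ ∂μ, ∃ n, σ ∉ fixesOrder E (l ^ n) := by
  rw [ae_iff]
  simp only [not_exists, not_not]
  set B := {σ : Fin e → K.fixingSubgroup | ∀ n, σ ∈ fixesOrder E (l ^ n)}
  set D := K.fixingSubgroup.index
  by_contra hB
  obtain ⟨C, hC⟩ := ENNReal.exists_nat_mul_gt hB
    (ENNReal.natCast_ne_top (l ^ (2 * m) * D))
  obtain ⟨n, hn⟩ : ∃ n, n = m + C + 1 := ⟨_, rfl⟩
  have h := measure_fixesOrder_le E μ (j := 1) (o := l ^ (2 * (n - m)))
    (pow_ne_zero n hl.ne_zero) he fun P hP => pow_le_ncard_orbit hm hl (by omega) hP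
  rw [pow_one, pow_one, ← pow_mul, mul_comm n,
    show 2 * n = 2 * m + 2 * (n - m) by omega, pow_add, mul_right_comm, Nat.cast_mul, Nat.cast_mul,
    ← mul_assoc] at h
  rw [ENNReal.mul_le_mul_iff_left (by exact_mod_cast (pow_ne_zero _ hl.ne_zero))
    (ENNReal.natCast_ne_top _)] at h
  refine absurd hC (not_lt.2 (le_trans ?_ h))
  rw [mul_comm]
  gcongr
  · intro σ hσ
    exact hσ n
  · rw [Nat.totient_prime_pow hl (by omega)]
    refine le_trans ?_ (Nat.le_mul_of_pos_right _ (Nat.sub_pos_of_lt hl.one_lt))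
    have := Nat.lt_pow_self hl.one_lt (n := n - 1)
    omega

include hm in
/-- **Almost every tuple of two or more fixes points of finitely many prime orders only.** -/
theorem ae_not_fixesOrder_prime (he : 2 ≤ e) :
    ∀ᵐ σ ∂μ, ∃ b : ℕ, ∀ l : ℕ, l.Prime → b ≤ l → σ ∉ fixesOrder E l := by
  set D := K.fixingSubgroup.index
  let s : ℕ → Set (Fin e → K.fixingSubgroup) := fun l =>
    if l.Prime ∧ m < l then fixesOrder E l else ∅
  have hle : ∀ l, μ (s l) ≤ ENNReal.ofReal (4 * (D : ℝ) ^ 2 * (1 / (l : ℝ) ^ 2)) := fun l => by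
    by_cases hl : l.Prime ∧ m < l
    swap
    · simp [s, hl]
    have h := measure_fixesOrder_le E μ (j := 2) (o := l ^ 2 - l) hl.1.ne_zero he fun P hP =>
      sub_le_ncard_orbit hm hl.1 hl.2 hP
    rw [Nat.totient_prime hl.1] at h
    have hl2 : (2 : ℝ) ≤ l := by exact_mod_cast hl.1.two_le
    have hr := ENNReal.toReal_mono (ENNReal.natCast_ne_top _) h
    rw [ENNReal.toReal_mul, ENNReal.toReal_natCast, ENNReal.toReal_natCast] at hr
    simp only [s, if_pos hl]
    rw [← ENNReal.ofReal_toReal (measure_ne_top μ (fixesOrder E l))]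
    refine ENNReal.ofReal_le_ofReal ?_
    set x := (μ (fixesOrder (K := K) (e := e) E l)).toReal
    have hx : 0 ≤ x := ENNReal.toReal_nonneg
    rw [Nat.cast_mul, Nat.cast_pow, Nat.cast_sub hl.1.one_lt.le,
      Nat.cast_sub (Nat.le_self_pow two_ne_zero l), Nat.cast_mul, Nat.cast_pow, Nat.cast_pow] at hr
    push_cast at hr
    have h3 : x * ((l : ℝ) - 1) ^ 3 ≤ (D : ℝ) ^ 2 := by
      refine le_of_mul_le_mul_left ?_ (show (0 : ℝ) < (l : ℝ) ^ 2 by positivity)
      calc (l : ℝ) ^ 2 * (x * ((l : ℝ) - 1) ^ 3)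
          = x * (((l : ℝ) - 1) * ((l : ℝ) ^ 2 - l) ^ 2) := by ring
        _ ≤ (l : ℝ) ^ 2 * (D : ℝ) ^ 2 := hr
    have h4 : (l : ℝ) ^ 2 ≤ 4 * ((l : ℝ) - 1) ^ 3 := by nlinarith [sq_nonneg ((l : ℝ) - 2)]
    rw [mul_one_div, le_div_iff₀ (by positivity)]
    nlinarith [mul_le_mul_of_nonneg_left h4 hx]
  have hsum : Summable fun l : ℕ => 4 * (D : ℝ) ^ 2 * (1 / (l : ℝ) ^ 2) :=
    (Real.summable_one_div_nat_pow.2 one_lt_two).mul_left _
  have hne : (∑' l, μ (s l)) ≠ ∞ := ne_top_of_le_ne_top
    (by rw [← ENNReal.ofReal_tsum_of_nonneg (fun l => by positivity) hsum]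
        exact ENNReal.ofReal_ne_top) (ENNReal.tsum_le_tsum hle)
  filter_upwards [ae_eventually_notMem hne] with σ hσ
  obtain ⟨b, hb⟩ := eventually_atTop.1 hσ
  refine ⟨max b (m + 1), fun l hl hbl => ?_⟩
  rw [max_le_iff] at hbl
  have h := hb l hbl.1
  simp only [s, if_pos (show l.Prime ∧ m < l from ⟨hl, hbl.2⟩)] at h
  exact h

omit [FiniteDimensional ℚ K] in
/-- The reciprocals of the primes beyond a bound have arbitrarily large finite sums. -/
theorem exists_primes_sum_ge (b : ℕ) (C : ℝ) :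
    ∃ S : Finset ℕ, (∀ l ∈ S, l.Prime ∧ b ≤ l) ∧ C ≤ ∑ l ∈ S, 1 / (l : ℝ) := by
  by_contra! hc
  refine not_summable_one_div_on_primes (summable_of_sum_le
    (fun l => Set.indicator_nonneg (fun l _ => by positivity) l)
    (c := (∑ l ∈ Finset.range b, 1 / (l : ℝ)) + C) fun u => ?_)
  rw [Finset.sum_indicator_eq_sum_filter,
    ← Finset.sum_filter_add_sum_filter_not (u.filter fun l => l ∈ {p | Nat.Prime p}) (· < b)]
  refine add_le_add (Finset.sum_le_sum_of_subset_of_nonneg
    (fun l hl => Finset.mem_range.2 (Finset.mem_filter.1 hl).2) fun l _ _ => by positivity)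
    (hc _ fun l hl => ?_).le
  simp only [Finset.mem_filter, not_lt] at hl
  exact ⟨hl.1.2, hl.2⟩

include hm in
/-- **Almost every element fixes points of infinitely many prime orders.** -/
theorem ae_fixesOrder_prime [MeasurableSpace (Fin 1 → K.fixingSubgroup)]
    [BorelSpace (Fin 1 → K.fixingSubgroup)]
    (ν : Measure (Fin 1 → K.fixingSubgroup)) [IsProbabilityMeasure ν] [ν.IsMulLeftInvariant] :
    ∀ᵐ σ ∂ν, ∀ b : ℕ, ∃ l : ℕ, b ≤ l ∧ l.Prime ∧ σ ∈ fixesOrder E l := by
  rw [ae_all_iff]
  intro b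
  set B := {σ : Fin 1 → K.fixingSubgroup | ∀ l, b ≤ l → l.Prime → σ ∉ fixesOrder E l}
  set D := K.fixingSubgroup.index
  rw [ae_iff]
  simp only [not_exists, not_and]
  show ν B = 0
  suffices h : ∀ n : ℕ, ν.real B ≤ (D : ℝ) * Real.exp (-n) by
    have h0 : ν.real B ≤ 0 := by
      refine ge_of_tendsto' (x := (atTop : Filter ℕ)) ?_ h
      have := (Real.tendsto_exp_neg_atTop_nhds_zero.comp
        tendsto_natCast_atTop_atTop).const_mul (D : ℝ)
      rwa [mul_zero] at this
    exact (measureReal_eq_zero_iff).1 (le_antisymm h0 measureReal_nonneg)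
  intro n
  obtain ⟨S, hS, hsum⟩ := exists_primes_sum_ge (max b (m + 1)) (4 * (n : ℝ))
  simp only [max_le_iff] at hS
  have hSm : ∀ l ∈ S, l.Prime ∧ m < l := fun l hl => ⟨(hS l hl).1, (hS l hl).2.2⟩
  let ρ : GQ →* ∀ l : S, (torsionPerm E l).range :=
    MonoidHom.mk' (fun σ l => ⟨torsionPerm E l σ, σ, rfl⟩)
      fun σ σ' => funext fun l => Subtype.ext (map_mul _ σ σ')
  have hρ : Function.Surjective ρ := fun x => by
    choose τ hτ using fun l => (x l).2
    obtain ⟨σ, hσ⟩ := exists_simultaneous hm S hSm τ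
    exact ⟨σ, funext fun l => Subtype.ext ((hσ l).trans (hτ l))⟩
  let f : (Fin 1 → K.fixingSubgroup) →* ∀ l : S, (torsionPerm E l).range :=
    MonoidHom.mk' (fun σ => ρ (σ 0)) fun σ σ' => map_mul ρ (σ 0 : GQ) (σ' 0)
  have hfin : ∀ l : S, Finite (Submodule.torsionBy ℤ (E.toAffine⁄Qb).Point ((l : ℕ) : ℤ)) :=
    fun l => FA.EC.finite_torsion E (hS l l.2).1.ne_zero
  have : ∀ l : S, Fintype (torsionPerm E l).range := fun l => by
    have := hfin l
    exact Fintype.ofFinite _
  have hopen : IsOpen (f.rangeRestrict.ker : Set (Fin 1 → K.fixingSubgroup)) := by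
    rw [MonoidHom.ker_rangeRestrict]
    have hker : (f.ker : Set (Fin 1 → K.fixingSubgroup)) =
        ⋂ l : S, ⋂ P : Submodule.torsionBy ℤ (E.toAffine⁄Qb).Point ((l : ℕ) : ℤ),
          fixesPoint E P.1 := by
      ext σ
      simp only [SetLike.mem_coe, MonoidHom.mem_ker, Set.mem_iInter]
      refine ⟨fun h l P i => ?_, fun h => funext fun l => Subtype.ext (Equiv.ext fun P =>
        Subtype.ext ((torsionPerm_apply E l _ P).trans (h l P 0)))⟩
      have h' := congrArg Subtype.val (Equiv.congr_fun (congrArg Subtype.val (congrFun h l)) P)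
      rw [Subsingleton.elim i 0]
      exact (torsionPerm_apply E l _ P).symm.trans h'
    rw [hker]
    refine isOpen_iInter_of_finite fun l => ?_
    have := hfin l
    exact isOpen_iInter_of_finite fun P => isOpen_fixesPoint E P.1
  have : Fintype f.range := Fintype.ofFinite _
  let s : Finset f.range := Finset.univ.filter fun h => ∀ l : S, h.1 l ∉ fixingPerms E l
  have hsub : B ⊆ f.rangeRestrict ⁻¹' s := fun σ hσ => by
    simp only [Set.mem_preimage, s, Finset.coe_filter, Finset.mem_univ, true_and,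
      Set.mem_ofPred_eq]
    rintro l ⟨P, hP, hfix⟩
    have hl := hS l l.2
    refine hσ l hl.2.1 hl.1 ⟨P.1, ?_, fun i => ?_⟩
    · have := Fact.mk hl.1
      exact addOrderOf_eq_prime ((mem_torsionBy_nat E).1 P.2) fun h => hP (Subtype.ext h)
    · rw [Subsingleton.elim i 0, ← torsionPerm_apply]
      exact congrArg Subtype.val hfix
  have h := ENNReal.toReal_mono (ENNReal.natCast_ne_top _)
    ((mul_le_mul_left (measure_mono (μ := ν) hsub) _).trans
      (FreeGenerators.measure_preimage_mul_card ν f.rangeRestrict f.rangeRestrict_surjective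
        hopen s).le)
  rw [ENNReal.toReal_mul, ENNReal.toReal_natCast, ENNReal.toReal_natCast] at h
  change ν.real B * _ ≤ _ at h
  set a : S → ℕ := fun l => Fintype.card (torsionPerm E l).range
  set g : S → ℕ := fun l => (fixingPerms E l).ncard
  have hs : s.card ≤ ∏ l, (a l - g l) := by
    let t : ∀ l : S, Finset (torsionPerm E l).range := fun l =>
      Finset.univ.filter fun γ => γ ∉ fixingPerms E l
    have ht : ∀ l, (t l).card = a l - g l := fun l => by
      rw [← Set.ncard_coe_finset, show ((t l : Finset _) : Set (torsionPerm E l).range) =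
        (fixingPerms E l)ᶜ by ext; simp [t]]
      show _ = Fintype.card _ - (fixingPerms E l).ncard
      rw [← Nat.card_eq_fintype_card, ← Set.ncard_add_ncard_compl (fixingPerms E l)]
      omega
    rw [← Finset.prod_congr rfl fun l _ => ht l, ← Fintype.card_piFinset]
    exact Finset.card_le_card_of_injOn (fun h => h.1)
      (fun h hh => Fintype.mem_piFinset.2 fun l =>
        Finset.mem_filter.2 ⟨Finset.mem_univ _, (Finset.mem_filter.1 hh).2 l⟩)
      (Subtype.val_injective.injOn)
  have hidx : ∏ l, a l ≤ D * Fintype.card f.range := by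
    have hmap : f.range = K.fixingSubgroup.map ρ := by
      ext x
      exact ⟨fun ⟨σ, h⟩ => ⟨(σ 0 : GQ), (σ 0).2, h⟩, fun ⟨g, hg, h⟩ => ⟨fun _ => ⟨g, hg⟩, h⟩⟩
    rw [← Fintype.card_pi, ← Nat.card_eq_fintype_card, ← Nat.card_eq_fintype_card,
      ← Subgroup.index_mul_card f.range]
    refine Nat.mul_le_mul_right _ (Nat.le_of_dvd fixingSubgroup_index_pos ?_)
    rw [hmap]
    exact Subgroup.index_map_dvd _ hρ
  have ha : (0 : ℝ) < ∏ l, (a l : ℝ) :=
    Finset.prod_pos fun l _ => by exact_mod_cast Fintype.card_pos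
  have hfac : ∀ l : S, ((a l - g l : ℕ) : ℝ) ≤ a l * Real.exp (-(1 / (4 * ((l : ℕ) : ℝ)))) :=
    fun l => by
      have hga : g l ≤ a l := by
        show Set.ncard _ ≤ Fintype.card _
        rw [← Nat.card_eq_fintype_card]
        exact Set.ncard_le_card _
      have hla : (a l : ℝ) ≤ 4 * (l : ℕ) * (g l : ℝ) := by
        have := card_range_le hm (hS l l.2).1 (hS l l.2).2.2
        rw [Nat.card_eq_fintype_card] at this
        exact_mod_cast this
      have hl0 : (0 : ℝ) < 4 * ((l : ℕ) : ℝ) := by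
        have := (hS l l.2).1.pos
        positivity
      rw [Nat.cast_sub hga]
      refine le_trans ?_ (mul_le_mul_of_nonneg_left (Real.one_sub_le_exp_neg _) (Nat.cast_nonneg _))
      rw [mul_sub, mul_one, mul_one_div]
      have : (a l : ℝ) / (4 * ((l : ℕ) : ℝ)) ≤ g l := by
        rw [div_le_iff₀ hl0]
        linarith
      linarith
  refine le_of_mul_le_mul_right ?_ ha
  calc ν.real B * ∏ l, (a l : ℝ) ≤ ν.real B * ((D : ℝ) * Fintype.card f.range) :=
        mul_le_mul_of_nonneg_left (by exact_mod_cast hidx) measureReal_nonneg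
    _ = (D : ℝ) * (ν.real B * Fintype.card f.range) := by ring
    _ ≤ (D : ℝ) * ∏ l, (a l * Real.exp (-(1 / (4 * ((l : ℕ) : ℝ))))) := by
        refine mul_le_mul_of_nonneg_left (h.trans ((Nat.cast_le.2 hs).trans ?_)) (Nat.cast_nonneg _)
        rw [Nat.cast_prod]
        exact Finset.prod_le_prod (fun l _ => Nat.cast_nonneg _) fun l _ => hfac l
    _ ≤ (D : ℝ) * Real.exp (-n) * ∏ l, (a l : ℝ) := by
        rw [Finset.prod_mul_distrib, ← Real.exp_sum, mul_comm (∏ l, (a l : ℝ)), ← mul_assoc]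
        refine mul_le_mul_of_nonneg_right (mul_le_mul_of_nonneg_left (Real.exp_le_exp.2 ?_)
          (Nat.cast_nonneg _)) ha.le
        rw [Finset.sum_neg_distrib, neg_le_neg_iff,
          Finset.sum_coe_sort S (fun l : ℕ => 1 / (4 * (l : ℝ)))]
        calc (n : ℝ) ≤ (∑ l ∈ S, 1 / (l : ℝ)) / 4 := by linarith
          _ = ∑ l ∈ S, 1 / (4 * (l : ℝ)) := by
            rw [Finset.sum_div]
            exact Finset.sum_congr rfl fun l _ => by rw [div_div, mul_comm]

end Fermat.Agent.RandomTorsion
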