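import Fermat.Agent.Root.SummaryGaloisGL2
import Fermat.Agent.Root.SummaryTorsion
import Fermat.Agent.Root.SummaryMordellWeilNumberField

/-!
# Orbits of torsion points under an open adelic image

If Galois induces every automorphism of the torsion fixing the points killed by `m`, a point of
order `l ^ n` has at least `l ^ (2 (n - m))` conjugates, and one of prime order `l > m` at least
`l ^ 2 - l`.
-/

set_option autoImplicit false
set_option linter.style.haveILetI false
set_option linter.unusedSectionVars false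

noncomputable section

open WeierstrassCurve
open scoped WeierstrassCurve.Affine Classical

local notation "Qb" => AlgebraicClosure ℚ
local notation "GQ" => AlgebraicClosure ℚ ≃ₐ[ℚ] AlgebraicClosure ℚ

namespace Fermat.Agent.RandomTorsion

variable (E : WeierstrassCurve ℚ) [E.IsElliptic]

/-- Galois induces every automorphism of the torsion fixing the points killed by `m`. -/
def IsAdelicLevel (m : ℕ) : Prop :=
  0 < m ∧ ∀ N : ℕ, N ≠ 0 →
    ∀ φ : Submodule.torsionBy ℤ (E.toAffine⁄Qb).Point (N : ℤ) ≃+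
      Submodule.torsionBy ℤ (E.toAffine⁄Qb).Point (N : ℤ),
    (∀ P, m • P.1 = 0 → φ P = P) → ∃ σ : GQ, ∀ P, Affine.Point.map σ.toAlgHom P.1 = (φ P).1

theorem mem_torsionBy_nat {N : ℕ} {P : (E.toAffine⁄Qb).Point} :
    P ∈ Submodule.torsionBy ℤ (E.toAffine⁄Qb).Point (N : ℤ) ↔ N • P = 0 := by
  rw [Submodule.mem_torsionBy_iff, natCast_zsmul]

/-- The action on the torsion of a level. -/
def torsionPerm (N : ℕ) :
    GQ →* Equiv.Perm (Submodule.torsionBy ℤ (E.toAffine⁄Qb).Point (N : ℤ)) :=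
  MonoidHom.mk' (fun σ => (MulAction.toPerm σ).subtypeEquiv fun P => by
    rw [mem_torsionBy_nat, mem_torsionBy_nat, MulAction.toPerm_apply]
    simp only [Affine.Point.algEquiv_smul_def, ← map_nsmul,
      map_eq_zero_iff _ (Affine.Point.map_injective _)])
    fun σ τ => Equiv.ext fun P => Subtype.ext (by simp [mul_smul])

theorem torsionPerm_apply (N : ℕ) (σ : GQ)
    (P : Submodule.torsionBy ℤ (E.toAffine⁄Qb).Point (N : ℤ)) :
    (torsionPerm E N σ P).1 = Affine.Point.map (W' := E.toAffine) σ.toAlgHom P.1 :=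
  Affine.Point.algEquiv_smul_def σ P.1

/-- The torsion of a level is free of rank two. -/
theorem exists_torsion_coord (N : ℕ) [NeZero N] :
    Nonempty (Submodule.torsionBy ℤ (E.toAffine⁄Qb).Point (N : ℤ) ≃+ (Fin 2 → ZMod N)) := by
  obtain ⟨W, hW⟩ := FA.Frob.exists_integralModel E
  haveI := FA.Frob.ratCurve_isElliptic_of_Δ (FA.Frob.Δ_ne_zero_of_model hW)
  obtain ⟨e, -⟩ := FA.Root.exists_equiv_of_model hW
  obtain ⟨b⟩ := FA.PadicImage.nonempty_torsion_equiv W (N := N)
  refine ⟨AddEquiv.trans (AddEquiv.mk' (e.symm.toEquiv.subtypeEquiv fun P => ?_) ?_)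
    b.symm.toAddEquiv⟩
  · simp only [Submodule.mem_torsionBy_iff, AddEquiv.toEquiv_eq_coe, EquivLike.coe_coe]
    rw [← map_zsmul, EmbeddingLike.map_eq_zero_iff]
  · exact fun P Q => Subtype.ext (map_add e.symm P.1 Q.1)

variable {E} {m : ℕ} (hm : IsAdelicLevel E m) {N : ℕ} [NeZero N]

include hm in
/-- The transvections and dilations congruent to the identity come from Galois. -/
theorem exists_transvection
    (e : Submodule.torsionBy ℤ (E.toAffine⁄Qb).Point (N : ℤ) ≃+ (Fin 2 → ZMod N))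
    (i : Fin 2) (u : ZMod N) (w : Fin 2 → ZMod N) (hunit : IsUnit (1 + u * w i))
    (hfix : ∀ x : Fin 2 → ZMod N, m • x = 0 → (u * x i) • w = 0) :
    ∃ σ : GQ, ∀ x, e (torsionPerm E N σ (e.symm x)) = x + (u * x i) • w := by
  obtain ⟨v, hv⟩ := hunit
  set s : ZMod N := ((v⁻¹ : (ZMod N)ˣ) : ZMod N) with hs
  have hsv : (1 + u * w i) * s = 1 := by rw [hs, ← hv, v.mul_inv]
  let f : (Fin 2 → ZMod N) ≃+ (Fin 2 → ZMod N) := AddEquiv.mk'
    ⟨fun x => x + (u * x i) • w, fun x => x - (s * u * x i) • w, fun x => ?_, fun x => ?_⟩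
    fun x y => ?_
  rotate_left
  · funext j
    simp only [Pi.add_apply, Pi.sub_apply, Pi.smul_apply, smul_eq_mul]
    linear_combination -(u * x i * w j) * hsv
  · funext j
    simp only [Pi.add_apply, Pi.sub_apply, Pi.smul_apply, smul_eq_mul]
    linear_combination -(u * x i * w j) * hsv
  · simp only [Equiv.coe_fn_mk, Pi.add_apply, mul_add, add_smul]
    abel
  obtain ⟨σ, hσ⟩ := hm.2 N (NeZero.ne N) ((e.trans f).trans e.symm) fun P hP => by
    have h0 : m • e P = 0 := by
      rw [← map_nsmul, show m • P = 0 from Subtype.ext hP, map_zero]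
    show e.symm (e P + (u * e P i) • w) = P
    rw [hfix _ h0, add_zero, e.symm_apply_apply]
  refine ⟨σ, fun x => ?_⟩
  have h := hσ (e.symm x)
  rw [show torsionPerm E N σ (e.symm x) = e.symm (x + (u * x i) • w) from Subtype.ext (by
    rw [torsionPerm_apply, h]
    show (e.symm (f (e (e.symm x)))).1 = _
    rw [e.apply_symm_apply]
    rfl), e.apply_symm_apply]

include hm in
/-- Moving a point with a unit coordinate by any admissible vector. -/
theorem exists_translate
    (e : Submodule.torsionBy ℤ (E.toAffine⁄Qb).Point (N : ℤ) ≃+ (Fin 2 → ZMod N))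
    (P : Submodule.torsionBy ℤ (E.toAffine⁄Qb).Point (N : ℤ)) {i : Fin 2} (hi : IsUnit (e P i))
    (w : Fin 2 → ZMod N) (hunit : IsUnit (e P i + w i))
    (hfix : ∀ x : Fin 2 → ZMod N, m • x = 0 → x i • w = 0) :
    ∃ σ : GQ, torsionPerm E N σ P = e.symm (e P + w) := by
  obtain ⟨v, hv⟩ := hi
  obtain ⟨σ, hσ⟩ := exists_transvection hm e i ((v⁻¹ : (ZMod N)ˣ) : ZMod N) w (by
    rw [show (1 : ZMod N) + ((v⁻¹ : (ZMod N)ˣ) : ZMod N) * w i =
      ((v⁻¹ : (ZMod N)ˣ) : ZMod N) * (e P i + w i) by rw [mul_add, ← hv, v.inv_mul]]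
    exact (Units.isUnit _).mul hunit) fun x hx => by rw [mul_smul, hfix x hx, smul_zero]
  refine ⟨σ, e.injective ?_⟩
  have h := hσ (e P)
  rw [e.symm_apply_apply, ← hv, v.inv_mul, one_smul] at h
  rw [h, e.apply_symm_apply]

omit N in
include hm in
/-- **A point of order `l ^ n` has at least `l ^ (2 (n - m))` conjugates.** -/
theorem pow_le_ncard_orbit {l n : ℕ} (hl : l.Prime) (hn : m < n)
    {P : (E.toAffine⁄Qb).Point} (hP : addOrderOf P = l ^ n) :
    l ^ (2 * (n - m)) ≤
      (Set.range fun σ : GQ => Affine.Point.map (W' := E.toAffine) σ.toAlgHom P).ncard := by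
  have : NeZero (l ^ n) := ⟨pow_ne_zero n hl.ne_zero⟩
  obtain ⟨e⟩ := exists_torsion_coord E (l ^ n)
  let T : Submodule.torsionBy ℤ (E.toAffine⁄Qb).Point ((l ^ n : ℕ) : ℤ) :=
    ⟨P, (mem_torsionBy_nat E).2 (by rw [← hP]; exact addOrderOf_nsmul_eq_zero P)⟩
  have hdvd : ∀ a : ZMod (l ^ n), ¬ IsUnit a → l ∣ a.val := fun a ha => by
    by_contra hc
    refine ha ?_
    rw [← ZMod.natCast_zmod_val a, ZMod.isUnit_iff_coprime]
    exact (Nat.coprime_pow_right_iff (by omega) _ _).2 (hl.coprime_iff_not_dvd.2 hc).symm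
  obtain ⟨i, hi⟩ : ∃ i, IsUnit (e T i) := by
    by_contra! hc
    have h0 : l ^ (n - 1) • T = 0 := e.injective (by
      rw [map_nsmul, map_zero]
      funext j
      rw [Pi.smul_apply, nsmul_eq_mul, Pi.zero_apply, ← ZMod.natCast_zmod_val (e T j),
        ← Nat.cast_mul, ZMod.natCast_eq_zero_iff]
      obtain ⟨c, hc⟩ := hdvd _ (hc j)
      rw [hc, ← mul_assoc, ← pow_succ, Nat.sub_add_cancel (by omega)]
      exact dvd_mul_right _ _)
    have h1 := addOrderOf_dvd_of_nsmul_eq_zero (congrArg Subtype.val h0 : l ^ (n - 1) • P = 0)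
    rw [hP, Nat.pow_dvd_pow_iff_le_right hl.one_lt] at h1
    omega
  let w : (Fin 2 → Fin (l ^ (n - m))) → Fin 2 → ZMod (l ^ n) :=
    fun a j => ((l ^ m * (a j : ℕ) : ℕ) : ZMod (l ^ n))
  have hlt : ∀ (a : Fin 2 → Fin (l ^ (n - m))) j, l ^ m * (a j : ℕ) < l ^ n := fun a j =>
    calc l ^ m * (a j : ℕ) < l ^ m * l ^ (n - m) :=
          Nat.mul_lt_mul_of_pos_left (a j).2 (pow_pos hl.pos m)
      _ = l ^ n := by rw [← pow_add, Nat.add_sub_cancel' hn.le]
  have hmove : ∀ a, ∃ σ : GQ, torsionPerm E (l ^ n) σ T = e.symm (e T + w a) := fun a => by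
    refine exists_translate hm e T hi (w a) ?_ fun x hx => ?_
    · obtain ⟨v, hv⟩ := hi
      rw [← hv, show (v : ZMod (l ^ n)) + w a i =
        v * (1 + ((v⁻¹ : (ZMod (l ^ n))ˣ) : ZMod (l ^ n)) * w a i) by
          rw [mul_add, ← mul_assoc, v.mul_inv]; ring]
      refine v.isUnit.mul (IsNilpotent.isUnit_one_add ?_)
      refine (Commute.all _ _).isNilpotent_mul_left ⟨n, ?_⟩
      show ((_ : ℕ) : ZMod (l ^ n)) ^ n = 0
      rw [← Nat.cast_pow, ZMod.natCast_eq_zero_iff]
      exact pow_dvd_pow_of_dvd ((dvd_pow_self l hm.1.ne').mul_right _) n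
    · funext j
      have hxi : (m : ZMod (l ^ n)) * x i = 0 := by
        rw [← nsmul_eq_mul, ← Pi.smul_apply, hx, Pi.zero_apply]
      obtain ⟨k, hk, hgk⟩ := (Nat.dvd_prime_pow hl).1 (Nat.gcd_dvd_right m (l ^ n))
      have hkm : k ≤ m := by
        have h1 := Nat.le_of_dvd hm.1 (hgk ▸ Nat.gcd_dvd_left m (l ^ n))
        have := Nat.lt_pow_self hl.one_lt (n := k)
        omega
      have hg : ((l ^ k : ℕ) : ZMod (l ^ n)) * x i = 0 := by
        have hb := congrArg (Int.cast : ℤ → ZMod (l ^ n)) (Nat.gcd_eq_gcd_ab m (l ^ n))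
        push_cast at hb
        rw [show ((l : ZMod (l ^ n)) ^ n) = 0 by rw [← Nat.cast_pow, ZMod.natCast_self],
          zero_mul, add_zero] at hb
        rw [← hgk, hb, mul_right_comm, hxi, zero_mul]
      show x i * ((l ^ m * (a j : ℕ) : ℕ) : ZMod (l ^ n)) = 0
      rw [show l ^ m * (a j : ℕ) = l ^ k * (l ^ (m - k) * (a j : ℕ)) by
          rw [← mul_assoc, ← pow_add, Nat.add_sub_cancel' hkm],
        Nat.cast_mul, ← mul_assoc, mul_comm (x i), hg, zero_mul]
  choose σ hσ using hmove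
  let f : (Fin 2 → Fin (l ^ (n - m))) →
      Set.range fun σ : GQ => Affine.Point.map (W' := E.toAffine) σ.toAlgHom P :=
    fun a => ⟨_, σ a, rfl⟩
  have hf : Function.Injective f := fun a b hab => by
    have h := congrArg Subtype.val hab
    change Affine.Point.map (W' := E.toAffine) (σ a).toAlgHom T.1 =
      Affine.Point.map (W' := E.toAffine) (σ b).toAlgHom T.1 at h
    rw [← torsionPerm_apply, ← torsionPerm_apply, hσ, hσ] at h
    have h' := add_left_cancel (e.symm.injective (Subtype.ext h))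
    funext j
    have hj := congrArg ZMod.val (congrFun h' j)
    rw [ZMod.val_natCast_of_lt (hlt a j), ZMod.val_natCast_of_lt (hlt b j)] at hj
    exact Fin.ext (Nat.eq_of_mul_eq_mul_left (pow_pos hl.pos m) hj)
  have : Finite (Set.range fun σ : GQ => Affine.Point.map (W' := E.toAffine) σ.toAlgHom P) := by
    have := FA.EC.finite_torsion E (pow_ne_zero n hl.ne_zero)
    refine Finite.of_injective (β := Submodule.torsionBy ℤ (E.toAffine⁄Qb).Point ((l ^ n : ℕ) : ℤ))
      (fun Q => ⟨Q.1, ?_⟩) fun Q Q' h =>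
        Subtype.ext (Subtype.mk.inj h)
    obtain ⟨Q, τ, rfl⟩ := Q
    exact (mem_torsionBy_nat E).2 (by
      rw [← map_nsmul, (mem_torsionBy_nat E).1 T.2, map_zero])
  have := Nat.card_le_card_of_injective f hf
  rwa [Nat.card_fun, Nat.card_fin, Nat.card_fin, ← pow_mul, Nat.card_coe_set_eq,
    mul_comm] at this

omit N in
include hm in
/-- **A point of prime order `l > m` has at least `l ^ 2 - l` conjugates.** -/
theorem sub_le_ncard_orbit {l : ℕ} (hl : l.Prime) (hlm : m < l)
    {P : (E.toAffine⁄Qb).Point} (hP : addOrderOf P = l) :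
    l ^ 2 - l ≤
      (Set.range fun σ : GQ => Affine.Point.map (W' := E.toAffine) σ.toAlgHom P).ncard := by
  have : Fact l.Prime := ⟨hl⟩
  obtain ⟨e⟩ := exists_torsion_coord E l
  let T : Submodule.torsionBy ℤ (E.toAffine⁄Qb).Point (l : ℤ) :=
    ⟨P, (mem_torsionBy_nat E).2 (by rw [← hP]; exact addOrderOf_nsmul_eq_zero P)⟩
  obtain ⟨i, hi⟩ : ∃ i, e T i ≠ 0 := by
    by_contra! hc
    have h0 : P = 0 := congrArg Subtype.val (e.injective
      ((funext hc : e T = 0).trans (map_zero e).symm))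
    rw [h0, addOrderOf_zero] at hP
    exact hl.ne_one hP.symm
  have hm0 : (m : ZMod l) ≠ 0 := fun h =>
    absurd (Nat.le_of_dvd hm.1 ((ZMod.natCast_eq_zero_iff m l).1 h)) (by omega)
  have hmove : ∀ y : Fin 2 → ZMod l, y i ≠ 0 →
      ∃ σ : GQ, torsionPerm E l σ T = e.symm y := fun y hy => by
    obtain ⟨σ, hσ⟩ := exists_translate hm e T (isUnit_iff_ne_zero.2 hi) (y - e T)
      (by simpa using isUnit_iff_ne_zero.2 hy) fun x hx => by
        have h : (m : ZMod l) * x i = 0 := by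
          rw [← nsmul_eq_mul, ← Pi.smul_apply, hx, Pi.zero_apply]
        rw [(mul_eq_zero.1 h).resolve_left hm0, zero_smul]
    exact ⟨σ, by rw [hσ, add_sub_cancel]⟩
  set R := Set.range fun σ : GQ => Affine.Point.map (W' := E.toAffine) σ.toAlgHom P
  have hR : R.Finite := by
    have := FA.EC.finite_torsion E hl.ne_zero
    refine (Set.finite_range fun Q : Submodule.torsionBy ℤ (E.toAffine⁄Qb).Point (l : ℤ) =>
      Q.1).subset ?_
    rintro _ ⟨σ, rfl⟩
    exact ⟨torsionPerm E l σ T, torsionPerm_apply E l σ T⟩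
  have hsub : (fun y => (e.symm y).1) '' {y : Fin 2 → ZMod l | y i ≠ 0} ⊆ R := by
    rintro _ ⟨y, hy, rfl⟩
    obtain ⟨σ, hσ⟩ := hmove y hy
    exact ⟨σ, ((torsionPerm_apply E l σ T).symm.trans (congrArg Subtype.val hσ))⟩
  refine le_trans ?_ (Set.ncard_le_ncard hsub hR)
  rw [Set.ncard_image_of_injective _ (f := fun y => (e.symm y).1)
    (Subtype.val_injective.comp e.symm.injective)]
  have hc := Set.ncard_add_ncard_compl {y : Fin 2 → ZMod l | y i ≠ 0}
  rw [Nat.card_fun, Nat.card_zmod, Nat.card_fin] at hc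
  have hle : ({y : Fin 2 → ZMod l | y i ≠ 0}ᶜ).ncard ≤ l := by
    obtain ⟨j, hji⟩ := exists_ne i
    refine (Set.ncard_le_ncard_of_injOn (fun y => y j) (fun y _ => Set.mem_univ _) ?_).trans
      (by rw [Set.ncard_univ, Nat.card_zmod])
    intro y hy y' hy' h
    simp only [Set.mem_compl_iff, Set.mem_ofPred_eq, not_not] at hy hy'
    funext k
    rcases eq_or_ne k i with rfl | hk
    · rw [hy, hy']
    · rw [show k = j by omega]
      exact h
  omega

end Fermat.Agent.RandomTorsion
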